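import Mathlib

/-!
# S22 / squad S22-S16, piece P4 (helper496): derivative of the transformed kernel

Function-level statements (no modular forms), for `g = [a b; c d] ∈ GL₂(ℝ)` with `det g > 0`,
`m : ℕ`, `k = m + 2`, `h G : ℍ → ℂ`, `x y : ℂ`:

* `kernel_eq` : `(a x + b y) - (g • z) (c x + d y) = det g * (x - z y) / (c z + d)`;
* `slash_eq_of_det_pos` : `(h ∣[k] g) z = h (g • z) * det g ^ (k - 1) * (c z + d) ^ (-k)`;
* `hasDerivAt_comp_smul_kernel` : if `d/dw G(w) = ((a x + b y) - w (c x + d y)) ^ m * h w` at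
  `w = g • z`, then `d/dz G (g • z) = (x - z y) ^ m * (h ∣[m + 2] g) z`;
* `isPrim_comp_smul_kernel` : the same for all `z` at once;
* `hasDerivAt_comp_smul_kernel_family` : the version for a family `G : ℍ → ℂ → ℂ → ℂ`
  (`w`, `x`, `y`) as in the squad plan.
-/

set_option autoImplicit false

namespace Fermat.Agent.S22.H496

open UpperHalfPlane Matrix
open scoped MatrixGroups ModularForm

/-- First coordinate of `g • (x, y)`: `a x + b y`. -/
noncomputable def actX (g : GL (Fin 2) ℝ) (x y : ℂ) : ℂ :=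
  ((g 0 0 : ℝ) : ℂ) * x + ((g 0 1 : ℝ) : ℂ) * y

/-- Second coordinate of `g • (x, y)`: `c x + d y`. -/
noncomputable def actY (g : GL (Fin 2) ℝ) (x y : ℂ) : ℂ :=
  ((g 1 0 : ℝ) : ℂ) * x + ((g 1 1 : ℝ) : ℂ) * y

theorem denom_eq (g : GL (Fin 2) ℝ) (z : ℍ) :
    denom g z = ((g 1 0 : ℝ) : ℂ) * z + ((g 1 1 : ℝ) : ℂ) := rfl

theorem num_eq (g : GL (Fin 2) ℝ) (z : ℍ) :
    num g z = ((g 0 0 : ℝ) : ℂ) * z + ((g 0 1 : ℝ) : ℂ) := rfl

theorem det_cast_eq (g : GL (Fin 2) ℝ) :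
    ((g.det.val : ℝ) : ℂ)
      = ((g 0 0 : ℝ) : ℂ) * ((g 1 1 : ℝ) : ℂ) - ((g 0 1 : ℝ) : ℂ) * ((g 1 0 : ℝ) : ℂ) := by
  have : g.det.val = g 0 0 * g 1 1 - g 0 1 * g 1 0 := by
    rw [Matrix.GeneralLinearGroup.val_det_apply, Matrix.det_fin_two]
  rw [this]; push_cast; ring

/-- `g • z = (a z + b) / (c z + d)` when `det g > 0`. -/
theorem coe_smul_eq (g : GL (Fin 2) ℝ) (hg : 0 < g.det.val) (z : ℍ) :
    ((g • z : ℍ) : ℂ) = num g z / denom g z :=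
  coe_smul_of_det_pos hg z

/-- **Kernel identity**: `(a x + b y) - (g • z) (c x + d y) = det g * (x - z y) / (c z + d)`. -/
theorem kernel_eq (g : GL (Fin 2) ℝ) (hg : 0 < g.det.val) (z : ℍ) (x y : ℂ) :
    actX g x y - ((g • z : ℍ) : ℂ) * actY g x y
      = ((g.det.val : ℝ) : ℂ) * (x - (z : ℂ) * y) / denom g z := by
  have hd : denom g z ≠ 0 := denom_ne_zero g z
  rw [coe_smul_eq g hg, eq_div_iff hd, sub_mul, mul_right_comm, div_mul_cancel₀ _ hd,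
    det_cast_eq, num_eq, denom_eq, actX, actY]
  ring

/-- Mathlib's slash action for `det g > 0`, unfolded:
`(h ∣[k] g) z = h (g • z) * det g ^ (k - 1) * (c z + d) ^ (-k)`. -/
theorem slash_eq_of_det_pos (k : ℤ) (g : GL (Fin 2) ℝ) (hg : 0 < g.det.val) (h : ℍ → ℂ) (z : ℍ) :
    (h ∣[k] g) z = h (g • z) * ((g.det.val : ℝ) : ℂ) ^ (k - 1) * denom g z ^ (-k) := by
  rw [ModularForm.slash_apply]
  have hσ : σ g (h (g • z)) = h (g • z) := by
    have hg' : 0 < g.val.det := by simpa using hg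
    simp [σ, hg']
  rw [hσ, abs_of_pos hg]

/-- Chain rule for Möbius maps at one point, phrased with `∘ ofComplex`. -/
theorem hasDerivAt_comp_smul (g : GL (Fin 2) ℝ) (hg : 0 < g.det.val) {F : ℍ → ℂ} {F' : ℂ}
    (z : ℍ) (hF : HasDerivAt (F ∘ ofComplex) F' ((g • z : ℍ) : ℂ)) :
    HasDerivAt ((fun w : ℍ => F (g • w)) ∘ ofComplex)
      (F' * (((g.det.val : ℝ) : ℂ) / denom g z ^ 2)) (z : ℂ) := by
  have hg' : 0 < g.val.det := by simpa using hg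
  have h_smul : HasDerivAt (fun u ↦ ↑(g • ofComplex u) : ℂ → ℂ)
      (((g.val.det : ℝ) : ℂ) / denom g z ^ 2) (z : ℂ) :=
    (hasStrictDerivAt_smul hg' z).hasDerivAt
  have hdet : ((g.val.det : ℝ) : ℂ) = ((g.det.val : ℝ) : ℂ) := by
    rw [Matrix.GeneralLinearGroup.val_det_apply]
  rw [hdet] at h_smul
  have hz : ((g • ofComplex (z : ℂ) : ℍ) : ℂ) = ((g • z : ℍ) : ℂ) := by
    rw [ofComplex_apply]
  have hF' : HasDerivAt (F ∘ ofComplex) F' ((fun u ↦ ↑(g • ofComplex u) : ℂ → ℂ) (z : ℂ)) := by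
    simpa only [hz] using hF
  have hcomp := hF'.comp (z : ℂ) h_smul
  refine hcomp.congr_of_eventuallyEq ?_
  filter_upwards with u
  simp only [Function.comp_apply, ofComplex_apply]

/-- The algebraic identity behind P4:
`((a x + b y) - (g • z)(c x + d y)) ^ m * h (g • z) * (det g / (c z + d) ^ 2)
   = (x - z y) ^ m * (h ∣[m + 2] g) z`. -/
theorem kernel_mul_eq_slash (m : ℕ) (g : GL (Fin 2) ℝ) (hg : 0 < g.det.val) (h : ℍ → ℂ)
    (x y : ℂ) (z : ℍ) :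
    (actX g x y - ((g • z : ℍ) : ℂ) * actY g x y) ^ m * h (g • z)
        * (((g.det.val : ℝ) : ℂ) / denom g z ^ 2)
      = (x - (z : ℂ) * y) ^ m * (h ∣[((m : ℤ) + 2)] g) z := by
  have hd : denom g z ≠ 0 := denom_ne_zero g z
  rw [kernel_eq g hg, slash_eq_of_det_pos _ g hg]
  have e1 : ((m : ℤ) + 2 - 1) = ((m + 1 : ℕ) : ℤ) := by push_cast; ring
  have e2 : (-((m : ℤ) + 2)) = -((m + 2 : ℕ) : ℤ) := by push_cast; ring
  rw [e1, e2, zpow_natCast, _root_.zpow_neg, zpow_natCast, div_pow, mul_pow]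
  field_simp
  ring

/-- **P4, pointwise.** If `G ∘ ofComplex` has derivative `((a x + b y) - w (c x + d y)) ^ m * h w`
at `w = g • z`, then `z ↦ G (g • z)` has derivative `(x - z y) ^ m * (h ∣[m + 2] g) z` at `z`. -/
theorem hasDerivAt_comp_smul_kernel (m : ℕ) (g : GL (Fin 2) ℝ) (hg : 0 < g.det.val)
    (h G : ℍ → ℂ) (x y : ℂ) (z : ℍ)
    (hG : HasDerivAt (G ∘ ofComplex)
      ((actX g x y - ((g • z : ℍ) : ℂ) * actY g x y) ^ m * h (g • z)) ((g • z : ℍ) : ℂ)) :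
    HasDerivAt ((fun w : ℍ => G (g • w)) ∘ ofComplex)
      ((x - (z : ℂ) * y) ^ m * (h ∣[((m : ℤ) + 2)] g) z) (z : ℂ) := by
  have := hasDerivAt_comp_smul g hg z hG
  rwa [kernel_mul_eq_slash m g hg h x y z] at this

/-- **P4, global form.** -/
theorem isPrim_comp_smul_kernel (m : ℕ) (g : GL (Fin 2) ℝ) (hg : 0 < g.det.val)
    (h G : ℍ → ℂ) (x y : ℂ)
    (hG : ∀ w : ℍ, HasDerivAt (G ∘ ofComplex)
      ((actX g x y - (w : ℂ) * actY g x y) ^ m * h w) (w : ℂ)) (z : ℍ) :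
    HasDerivAt ((fun w : ℍ => G (g • w)) ∘ ofComplex)
      ((x - (z : ℂ) * y) ^ m * (h ∣[((m : ℤ) + 2)] g) z) (z : ℂ) :=
  hasDerivAt_comp_smul_kernel m g hg h G x y z (hG (g • z))

/-- **P4 for a family** `G : ℍ → ℂ → ℂ → ℂ` (`w`, `x`, `y`) with
`∂/∂w G(w; x, y) = (x - w y) ^ m * h w` for all `x y`:
`d/dz [G(g • z; a x + b y, c x + d y)] = (x - z y) ^ m * (h ∣[m + 2] g) z`. -/
theorem hasDerivAt_comp_smul_kernel_family (m : ℕ) (g : GL (Fin 2) ℝ) (hg : 0 < g.det.val)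
    (h : ℍ → ℂ) (G : ℍ → ℂ → ℂ → ℂ)
    (hG : ∀ (x y : ℂ) (w : ℍ), HasDerivAt (fun u : ℂ => G (ofComplex u) x y)
      ((x - (w : ℂ) * y) ^ m * h w) (w : ℂ)) (x y : ℂ) (z : ℍ) :
    HasDerivAt (fun u : ℂ => G (g • ofComplex u) (actX g x y) (actY g x y))
      ((x - (z : ℂ) * y) ^ m * (h ∣[((m : ℤ) + 2)] g) z) (z : ℂ) :=
  isPrim_comp_smul_kernel m g hg h (fun w => G w (actX g x y) (actY g x y)) x y
    (fun w => hG (actX g x y) (actY g x y) w) z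

/-- Same with the weight written as an arbitrary integer `k = m + 2`. -/
theorem hasDerivAt_comp_smul_kernel_family' (k : ℤ) (m : ℕ) (hk : k = (m : ℤ) + 2)
    (g : GL (Fin 2) ℝ) (hg : 0 < g.det.val)
    (h : ℍ → ℂ) (G : ℍ → ℂ → ℂ → ℂ)
    (hG : ∀ (x y : ℂ) (w : ℍ), HasDerivAt (fun u : ℂ => G (ofComplex u) x y)
      ((x - (w : ℂ) * y) ^ m * h w) (w : ℂ)) (x y : ℂ) (z : ℍ) :
    HasDerivAt (fun u : ℂ => G (g • ofComplex u) (actX g x y) (actY g x y))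
      ((x - (z : ℂ) * y) ^ m * (h ∣[k] g) z) (z : ℂ) := by
  subst hk
  exact hasDerivAt_comp_smul_kernel_family m g hg h G hG x y z

end Fermat.Agent.S22.H496
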